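import Fermat.Agent.JCd.Fin

/-!
# S25, block D1: the charts `U = {x regular}`, `V = {x⁻¹ regular}` are affine
-/

set_option autoImplicit false

noncomputable section

universe u

open CategoryTheory CategoryTheory.Limits AlgebraicGeometry TopologicalSpace Opposite IsLocalRing
open Fermat.Agent.AVS

namespace Fermat.Agent.JCd

variable {k : Type u} [Field k] {C : Scheme.{u}} {c : C ⟶ Spec (CommRingCat.of k)}
  [IsIntegral C]

theorem basicOpen_regSec (x : C.functionField) (hx : x ≠ 0) :
    C.basicOpen (regSec x) = regOpen x ⊓ regOpen x⁻¹ := by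
  ext ξ
  constructor
  · intro h
    have hU : ξ ∈ regOpen x := C.basicOpen_le _ h
    refine ⟨hU, ?_⟩
    have h1 : IsUnit (C.presheaf.germ (regOpen x) ξ hU (regSec x)) :=
      (Scheme.mem_basicOpen C (regSec x) ξ hU).1 h
    obtain ⟨u, hu⟩ := h1
    refine (mem_regOpen_iff x⁻¹ ξ).2 ⟨((u⁻¹ : Units _) : C.presheaf.stalk ξ), ?_⟩
    have h2 := germ_generic_eq hU (genericPoint_mem_regOpen x) (regSec x)
    rw [germ_regSec, ← hu] at h2
    have h3 : algebraMap (C.presheaf.stalk ξ) C.functionField u *
        algebraMap (C.presheaf.stalk ξ) C.functionField ((u⁻¹ : Units _) : C.presheaf.stalk ξ)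
          = 1 := by
      rw [← map_mul, Units.mul_inv, map_one]
    rw [h2] at h3
    exact eq_inv_of_mul_eq_one_right h3
  · rintro ⟨hU, hV⟩
    refine (Scheme.mem_basicOpen C (regSec x) ξ hU).2 ?_
    obtain ⟨t, ht⟩ := (mem_regOpen_iff x⁻¹ ξ).1 hV
    refine IsUnit.of_mul_eq_one t ?_
    apply IsFractionRing.injective (C.presheaf.stalk ξ) C.functionField
    rw [map_mul, map_one, ht, germ_generic_eq hU (genericPoint_mem_regOpen x), germ_regSec,
      mul_inv_cancel₀ hx]

theorem sup_regOpen (hI : Input c 1) (x : C.functionField) :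
    regOpen x ⊔ regOpen x⁻¹ = ⊤ := by
  ext ξ
  constructor
  · intro _; trivial
  · intro _
    rcases hval_of_input hI x ξ with h | h
    · exact Or.inl ((mem_regOpen_iff x ξ).2 h)
    · exact Or.inr ((mem_regOpen_iff x⁻¹ ξ).2 h)

theorem isAffineOpen_regOpen [IsProper c] (hI : Input c 1) (x : C.functionField)
    (hs : Function.Injective (Polynomial.eval₂RingHom (kStalk c (genericPoint C)) x)) :
    IsAffineOpen (regOpen x) := by
  have := isFinite_xmap hI x hs
  exact isAffine_of_isAffineHom (xmap c x)

theorem finite_eval₂ [IsProper c] (hI : Input c 1) (x : C.functionField)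
    (hs : Function.Injective (Polynomial.eval₂RingHom (kStalk c (genericPoint C)) x)) :
    (Polynomial.eval₂RingHom (kGam c (regOpen x)) (regSec x)).Finite := by
  have h1 := isFinite_xmap hI x hs
  have hU := isAffineOpen_regOpen hI x hs
  have : IsAffine (regOpen x).toScheme := hU
  have h3 : IsIso (regOpen x).toSpecΓ := by
    rw [← hU.isoSpec_hom]; infer_instance
  have h2 : IsFinite (Spec.map (CommRingCat.ofHom (Polynomial.eval₂RingHom
      (kGam c (regOpen x)) (regSec x)))) := by
    have h4 : Spec.map (CommRingCat.ofHom (Polynomial.eval₂RingHom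
      (kGam c (regOpen x)) (regSec x))) = inv (regOpen x).toSpecΓ ≫ xmap c x := by
      rw [xmap, toA1, IsIso.inv_hom_id_assoc]
    rw [h4]; infer_instance
  exact (IsFinite.SpecMap_iff _).1 h2

theorem injective_eval₂ (U : C.Opens) (s : Γ(C, U)) (h : genericPoint C ∈ U)
    (hs : Function.Injective (Polynomial.eval₂RingHom (kStalk c (genericPoint C))
      (C.presheaf.germ U (genericPoint C) h s))) :
    Function.Injective (Polynomial.eval₂RingHom (kGam c U) s) := by
  have h1 : (C.presheaf.germ U (genericPoint C) h).hom.comp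
      (Polynomial.eval₂RingHom (kGam c U) s) =
      Polynomial.eval₂RingHom (kStalk c (genericPoint C))
      (C.presheaf.germ U (genericPoint C) h s) := by
    apply Polynomial.ringHom_ext
    · intro a
      rw [RingHom.comp_apply, Polynomial.coe_eval₂RingHom, Polynomial.coe_eval₂RingHom,
        Polynomial.eval₂_C, Polynomial.eval₂_C]
      exact congrArg (fun g => g a) (germ_comp_kSec c U _ h)
    · rw [RingHom.comp_apply, Polynomial.coe_eval₂RingHom, Polynomial.coe_eval₂RingHom,
        Polynomial.eval₂_X, Polynomial.eval₂_X]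
  rw [← h1] at hs
  exact Function.Injective.of_comp (f := (C.presheaf.germ U (genericPoint C) h).hom) hs

end Fermat.Agent.JCd

end
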