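import Fermat.Agent.JCd.Val
import Fermat.Agent.AVS.Inst

/-!
# S25, block D: points of a smooth curve
-/

set_option autoImplicit false

noncomputable section

universe u

open CategoryTheory CategoryTheory.Limits AlgebraicGeometry TopologicalSpace Opposite IsLocalRing
open Fermat.Agent.AVS

namespace Fermat.Agent.JCd

variable {k : Type u} [Field k] {C : Scheme.{u}} (c : C ⟶ Spec (CommRingCat.of k))
  [IsIntegral C]

variable {c} in
theorem valuationRing_stalk (hI : Input c 1) (ξ : C) : ValuationRing (C.presheaf.stalk ξ) := by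
  refine hI.val ξ ?_
  simp

variable {c} in
theorem hval_of_input (hI : Input c 1) (x : C.functionField) (ξ : C) :
    (∃ t : C.presheaf.stalk ξ, algebraMap _ C.functionField t = x) ∨
      (∃ t : C.presheaf.stalk ξ, algebraMap _ C.functionField t = x⁻¹) := by
  haveI := valuationRing_stalk hI ξ
  rcases ValuationRing.isInteger_or_isInteger (C.presheaf.stalk ξ) x with h | h
  · exact Or.inl h
  · exact Or.inr h

include c in
theorem isLocallyNoetherian_of [LocallyOfFiniteType c] : IsLocallyNoetherian C :=
  LocallyOfFiniteType.isLocallyNoetherian c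

variable {c} in
/-- in a curve the only specializations are from the generic point. -/
theorem eq_of_specializes [LocallyOfFiniteType c] (hI : Input c 1) {ξ ζ : C} (h : ξ ⤳ ζ) :
    ξ = genericPoint C ∨ ξ = ζ := by
  have := isLocallyNoetherian_of c
  have := valuationRing_stalk hI ζ
  have : IsPrincipalIdealRing (C.presheaf.stalk ζ) := by
    have h0 : IsNoetherianRing (C.presheaf.stalk ζ) ↔ IsPrincipalIdealRing (C.presheaf.stalk ζ) :=
      (IsBezout.TFAE (R := C.presheaf.stalk ζ)).out 0 1
    exact h0.1 inferInstance
  have h1 : ξ ∈ Set.range (C.fromSpecStalk ζ) := by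
    rw [Scheme.range_fromSpecStalk]; exact h
  obtain ⟨p, hp⟩ := h1
  by_cases hp0 : p.asIdeal = ⊥
  · left
    have h2 : genericPoint C ∈ Set.range (C.fromSpecStalk ζ) := by
      rw [Scheme.range_fromSpecStalk]; exact (genericPoint_spec C).specializes trivial
    obtain ⟨q, hq⟩ := h2
    have h3 : p ⤳ q := by
      refine (PrimeSpectrum.le_iff_specializes p q).1 ?_
      rw [← PrimeSpectrum.asIdeal_le_asIdeal, hp0]
      exact bot_le
    have h4 := h3.map (C.fromSpecStalk ζ).continuous
    rw [hp, hq] at h4
    exact (h4.antisymm ((genericPoint_spec C).specializes trivial)).eq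
  · right
    have h2 : p.asIdeal.IsMaximal := IsPrime.to_maximal_ideal hp0
    have h3 : p = closedPoint (C.presheaf.stalk ζ) := by
      apply PrimeSpectrum.ext
      exact IsLocalRing.eq_maximalIdeal h2
    rw [← hp, h3, Scheme.fromSpecStalk_closedPoint]

variable {c} in
/-- closed subsets not containing the generic point are finite. -/
theorem finite_of_isClosed [LocallyOfFiniteType c] [CompactSpace C] (hI : Input c 1)
    (Z : Set C) (hZ : IsClosed Z) (hg : genericPoint C ∉ Z) : Z.Finite := by
  have := isLocallyNoetherian_of c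
  have : IsNoetherian C := {}
  obtain ⟨S, hSf, hSc, hSi, hSU⟩ :=
    NoetherianSpace.exists_finite_set_isClosed_irreducible hZ
  rw [hSU]
  refine hSf.sUnion fun t ht => ?_
  obtain ⟨ζ, hζ⟩ := QuasiSober.sober (hSi t ht) (hSc t ht)
  have h1 : t = {ζ} := by
    ext ξ
    constructor
    · intro hξ
      have h2 : ζ ⤳ ξ := by
        rw [specializes_iff_mem_closure, hζ]; exact hξ
      rcases eq_of_specializes hI h2 with h3 | h3
      · exact absurd (hSU ▸ Set.mem_sUnion.2 ⟨t, ht, h3 ▸ hζ.mem⟩) hg
      · exact h3.symm
    · rintro rfl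
      exact hζ.mem
  rw [h1]
  exact Set.finite_singleton ζ

end Fermat.Agent.JCd

end
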