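import Fermat.Agent.JCd.Aff
import Mathlib.RingTheory.AlgebraicIndependent.Transcendental
import Fermat.Prelude.Def_AlgebraicGeometry_RelativePicardFunctor

/-!
# S25, block D1: existence of a non-constant function vanishing at `ε`
-/

set_option autoImplicit false

noncomputable section

universe u

open CategoryTheory CategoryTheory.Limits AlgebraicGeometry TopologicalSpace Opposite IsLocalRing
open Fermat.Agent.AVS NeronModelInfra

namespace Fermat.Agent.JCd

variable {k : Type u} [Field k] {C : Scheme.{u}} {c : C ⟶ Spec (CommRingCat.of k)}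
  [IsIntegral C]

/-- `x` is transcendental over `k`. -/
def Tr (c : C ⟶ Spec (CommRingCat.of k)) (x : C.functionField) : Prop :=
  Function.Injective (Polynomial.eval₂RingHom (kStalk c (genericPoint C)) x)

theorem Tr.ne_zero {x : C.functionField} (h : Tr c x) : x ≠ 0 := by
  rintro rfl
  have h1 : Polynomial.eval₂RingHom (kStalk c (genericPoint C)) 0 Polynomial.X =
    Polynomial.eval₂RingHom (kStalk c (genericPoint C)) 0 0 := by simp
  exact Polynomial.X_ne_zero (h h1)

theorem tr_iff (x : C.functionField) :
    letI := (kStalk c (genericPoint C)).toAlgebra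
    Tr c x ↔ Transcendental k (show C.functionField from x) := by
  letI := (kStalk c (genericPoint C)).toAlgebra
  rw [transcendental_iff_injective]
  exact Iff.rfl

theorem Tr.inv {x : C.functionField} (h : Tr c x) : Tr c x⁻¹ := by
  letI : Algebra k C.functionField := (kStalk c (genericPoint C)).toAlgebra
  have h1 : Transcendental k x := (tr_iff x).1 h
  refine (tr_iff x⁻¹).2 fun h2 => h1 ?_
  have := IsAlgebraic.inv h2
  rwa [inv_inv] at this

/-- the point of `C` underlying the section `ε`. -/
def ePt (ε : SchemeHomOver (𝟙 (Spec (CommRingCat.of k))) c) : C :=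
  ε.1 (closedPoint (CommRingCat.of k))

/-- the local homomorphism `O_ε → k`. -/
def eHom (ε : SchemeHomOver (𝟙 (Spec (CommRingCat.of k))) c) :
    C.presheaf.stalk (ePt ε) →+* k :=
  (Scheme.stalkClosedPointTo (R := CommRingCat.of k) ε.1).hom

instance (ε : SchemeHomOver (𝟙 (Spec (CommRingCat.of k))) c) : IsLocalHom (eHom ε) :=
  Scheme.isLocalHom_stalkClosedPointTo' ε.1

theorem eHom_comp_kStalk (ε : SchemeHomOver (𝟙 (Spec (CommRingCat.of k))) c) :
    (eHom ε).comp (kStalk c (ePt ε)) = RingHom.id k := by
  have h1 : Spec.map (CommRingCat.ofHom (eHom ε)) ≫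
      Spec.map (CommRingCat.ofHom (kStalk c (ePt ε))) =
      Spec.map (CommRingCat.ofHom (RingHom.id k)) := by
    rw [← fromSpecStalk_comp, ← Category.assoc]
    have h2 : Spec.map (CommRingCat.ofHom (eHom ε)) ≫ C.fromSpecStalk (ePt ε) = ε.1 :=
      Scheme.Spec_stalkClosedPointTo_fromSpecStalk (R := CommRingCat.of k) ε.1
    rw [h2, ε.2]
    exact (Spec.map_id _).symm
  rw [← Spec.map_comp] at h1
  have h2 := Spec.map_injective h1
  rw [← CommRingCat.ofHom_comp] at h2
  exact congrArg CommRingCat.Hom.hom h2

theorem ePt_ne_generic (hI : Input c 1) (ε : SchemeHomOver (𝟙 (Spec (CommRingCat.of k))) c) :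
    ePt ε ≠ genericPoint C := by
  intro h
  have h1 := hI.trdeg_gen
  rw [← h] at h1
  letI := (kRes c (ePt ε)).toAlgebra
  -- the residue field of `ε` is `k`
  have h2 : Function.Surjective (algebraMap k (C.residueField (ePt ε))) := by
    have hres : ∀ a : k, IsLocalRing.ResidueField.lift (eHom ε) (kRes c (ePt ε) a) = a :=
      fun a => congrArg (fun g : k →+* k => g a) (eHom_comp_kStalk ε)
    intro a
    refine ⟨IsLocalRing.ResidueField.lift (eHom ε) a, ?_⟩
    apply (IsLocalRing.ResidueField.lift (eHom ε)).injective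
    exact hres (IsLocalRing.ResidueField.lift (eHom ε) a)
  have h3 : Algebra.IsAlgebraic k (C.residueField (ePt ε)) :=
    ⟨fun a => by obtain ⟨b, rfl⟩ := h2 a; exact isAlgebraic_algebraMap b⟩
  have h4 : Algebra.trdeg k (C.residueField (ePt ε)) = 0 := _root_.trdeg_eq_zero
  rw [h4] at h1
  simp at h1

theorem algebraMap_kStalk (ξ : C) (a : k) :
    algebraMap (C.presheaf.stalk ξ) C.functionField (kStalk c ξ a) =
      kStalk c (genericPoint C) a := by
  exact germ_generic_eq (W := ⊤) trivial trivial _

theorem exists_const_of_isAlgebraic {k K : Type*} [Field k] [IsAlgClosed k] [Field K]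
    [Algebra k K] {x : K} (hx : IsAlgebraic k x) : ∃ a, algebraMap k K a = x := by
  have := IntermediateField.isAlgebraic_adjoin_simple hx.isIntegral
  have h := IntermediateField.eq_bot_of_isAlgClosed_of_isAlgebraic
    (IntermediateField.adjoin k {x})
  have h2 : x ∈ (⊥ : IntermediateField k K) := h ▸ IntermediateField.mem_adjoin_simple_self k x
  exact IntermediateField.mem_bot.1 h2

/-- existence of a non-constant rational function vanishing at `ε`. -/
theorem exists_function [IsAlgClosed k] (hI : Input c 1)
    (ε : SchemeHomOver (𝟙 (Spec (CommRingCat.of k))) c) :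
    ∃ (x : C.functionField) (t : C.presheaf.stalk (ePt ε)), Tr c x ∧
      algebraMap (C.presheaf.stalk (ePt ε)) C.functionField t = x ∧ eHom ε t = 0 := by
  have h1 : ¬ IsField (C.presheaf.stalk (ePt ε)) := by
    intro hF
    -- then `ε` is the generic point
    apply ePt_ne_generic hI ε
    have h2 : genericPoint C ∈ Set.range (C.fromSpecStalk (ePt ε)) := by
      rw [Scheme.range_fromSpecStalk]; exact (genericPoint_spec C).specializes trivial
    obtain ⟨q, hq⟩ := h2
    have h3 : q = closedPoint (C.presheaf.stalk (ePt ε)) := by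
      apply PrimeSpectrum.ext
      have h5 : (closedPoint (C.presheaf.stalk (ePt ε))).asIdeal = ⊥ :=
        IsLocalRing.isField_iff_maximalIdeal_eq.1 hF
      have h6 : q.asIdeal ≤ (closedPoint (C.presheaf.stalk (ePt ε))).asIdeal :=
        IsLocalRing.le_maximalIdeal q.isPrime.ne_top
      rw [h5] at h6 ⊢
      exact le_bot_iff.1 h6
    rw [← hq, h3, Scheme.fromSpecStalk_closedPoint]
  obtain ⟨t, ht0, htu⟩ : ∃ t : C.presheaf.stalk (ePt ε), t ≠ 0 ∧ ¬ IsUnit t := by
    by_contra hcon
    push Not at hcon
    apply h1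
    exact ⟨exists_pair_ne _, mul_comm, fun {a} ha => by
      obtain ⟨u, hu⟩ := hcon a ha
      exact ⟨((u⁻¹ : Units _) : C.presheaf.stalk (ePt ε)), by rw [← hu, Units.mul_inv]⟩⟩
  have hev : eHom ε t = 0 := by
    by_contra hne
    exact htu ((inferInstance : IsLocalHom (eHom ε)).map_nonunit t (isUnit_iff_ne_zero.2 hne))
  refine ⟨algebraMap (C.presheaf.stalk (ePt ε)) C.functionField t, t, ?_, rfl, hev⟩
  letI : Algebra k C.functionField := (kStalk c (genericPoint C)).toAlgebra
  refine (tr_iff _).2 fun halg => ?_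
  obtain ⟨a, ha⟩ := exists_const_of_isAlgebraic halg
  have h5 : kStalk c (ePt ε) a = t := by
    apply IsFractionRing.injective (C.presheaf.stalk (ePt ε)) C.functionField
    rw [algebraMap_kStalk]
    exact ha
  have h6 : eHom ε (kStalk c (ePt ε) a) = a :=
    congrArg (fun g : k →+* k => g a) (eHom_comp_kStalk ε)
  rw [h5, hev] at h6
  rw [← h6, map_zero] at h5
  exact ht0 h5.symm

end Fermat.Agent.JCd

end
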