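import Fermat.Agent.JCd.Curve

/-!
# S25, block D: `U → 𝔸¹` is finite
-/

set_option autoImplicit false

noncomputable section

universe u

open CategoryTheory CategoryTheory.Limits AlgebraicGeometry TopologicalSpace Opposite IsLocalRing
open Fermat.Agent.AVS

namespace Fermat.Agent.JCd

variable {k : Type u} [Field k] {C : Scheme.{u}} (c : C ⟶ Spec (CommRingCat.of k))
  [IsIntegral C]

theorem genericPoint_mem_regOpen (x : C.functionField) : genericPoint C ∈ regOpen x := by
  obtain ⟨W, hW, s, hs⟩ := C.presheaf.exists_germ_eq x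
  exact Opens.mem_iSup.2 ⟨⟨W, hW, s, hs⟩, hW⟩

/-- the section of `x` over its domain of definition. -/
def regSec (x : C.functionField) : Γ(C, regOpen x) :=
  (exists_regSec x (genericPoint_mem_regOpen x)).choose

theorem germ_regSec (x : C.functionField) :
    C.presheaf.germ (regOpen x) (genericPoint C) (genericPoint_mem_regOpen x) (regSec x) = x :=
  (exists_regSec x (genericPoint_mem_regOpen x)).choose_spec

/-- the morphism `regOpen x ⟶ 𝔸¹`. -/
def xmap (x : C.functionField) :
    (regOpen x).toScheme ⟶ Spec (CommRingCat.of (Polynomial k)) :=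
  toA1 c (regOpen x) (regSec x)

theorem xmap_comp (x : C.functionField) :
    xmap c x ≫ Spec.map (CommRingCat.ofHom Polynomial.C) = (regOpen x).ι ≫ c :=
  toA1_comp c _ _

theorem isProper_xmap [IsProper c] (hI : Input c 1) (x : C.functionField) (hx : x ≠ 0) :
    IsProper (xmap c x) := by
  have := isLocallyNoetherian_of c
  exact isProper_toA1 c x (hval_of_input hI x) hx (genericPoint_mem_regOpen x) (regSec x)
    (germ_regSec x)

/-- the composite `Spec O_ξ → U → 𝔸¹`. -/
theorem fromSpecStalkOfMem_toA1 (U : C.Opens) (s : Γ(C, U)) (ξ : C) (h : ξ ∈ U) :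
    U.fromSpecStalkOfMem ξ h ≫ toA1 c U s =
      Spec.map (CommRingCat.ofHom (Polynomial.eval₂RingHom (kStalk c ξ)
        (C.presheaf.germ U ξ h s))) := by
  rw [toA1, Scheme.Opens.fromSpecStalkOfMem_toSpecΓ_assoc, ← Spec.map_comp]
  congr 1
  apply CommRingCat.hom_ext
  rw [CommRingCat.hom_comp, CommRingCat.hom_ofHom, CommRingCat.hom_ofHom]
  apply Polynomial.ringHom_ext
  · intro a
    rw [RingHom.comp_apply, Polynomial.coe_eval₂RingHom, Polynomial.coe_eval₂RingHom,
      Polynomial.eval₂_C, Polynomial.eval₂_C]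
    exact congrArg (fun g => g a) (germ_comp_kSec c U ξ h)
  · rw [RingHom.comp_apply, Polynomial.coe_eval₂RingHom, Polynomial.coe_eval₂RingHom,
      Polynomial.eval₂_X, Polynomial.eval₂_X]

theorem fromSpecStalkOfMem_closedPoint (U : C.Opens) (ξ : C) (h : ξ ∈ U) :
    U.fromSpecStalkOfMem ξ h (closedPoint (C.presheaf.stalk ξ)) = ⟨ξ, h⟩ := by
  apply Subtype.ext
  have h1 : U.ι (U.fromSpecStalkOfMem ξ h (closedPoint (C.presheaf.stalk ξ))) = ξ := by
    rw [← Scheme.Hom.comp_apply, Scheme.Opens.fromSpecStalkOfMem_ι,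
      Scheme.fromSpecStalk_closedPoint]
  exact h1

/-- the image of `ξ` in `𝔸¹`. -/
theorem toA1_apply (U : C.Opens) (s : Γ(C, U)) (ξ : C) (h : ξ ∈ U) :
    (toA1 c U s ⟨ξ, h⟩).asIdeal =
      RingHom.ker ((C.residue ξ).hom.comp (Polynomial.eval₂RingHom (kStalk c ξ)
        (C.presheaf.germ U ξ h s))) := by
  rw [← fromSpecStalkOfMem_closedPoint U ξ h, ← Scheme.Hom.comp_apply, fromSpecStalkOfMem_toA1]
  ext p
  have h1 : p ∈ ((Spec.map (CommRingCat.ofHom (Polynomial.eval₂RingHom (kStalk c ξ)
        (C.presheaf.germ U ξ h s)))) (closedPoint (C.presheaf.stalk ξ))).asIdeal ↔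
      Polynomial.eval₂RingHom (kStalk c ξ) (C.presheaf.germ U ξ h s) p ∈
        maximalIdeal (C.presheaf.stalk ξ) := Iff.rfl
  rw [h1, RingHom.mem_ker, RingHom.comp_apply]
  exact (IsLocalRing.residue_eq_zero_iff _).symm

variable {c} in
/-- a point whose residue field contains a transcendental element is generic. -/
theorem eq_generic_of_injective (hI : Input c 1) (ξ : C) (a : C.residueField ξ)
    (ha : Function.Injective (Polynomial.eval₂RingHom (kRes c ξ) a)) : ξ = genericPoint C := by
  apply hI.trdeg_eq ξ
  letI := (kRes c ξ).toAlgebra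
  apply le_antisymm (hI.trdeg_le ξ)
  have h1 : Transcendental k a := by
    rw [transcendental_iff_injective]
    exact ha
  have h2 : AlgebraicIndependent k (fun _ : PUnit.{u+1} => a) :=
    algebraicIndependent_unique_type_iff.2 h1
  have h3 := h2.cardinalMk_le_trdeg
  simpa using h3

theorem toA1_generic (U : C.Opens) (s : Γ(C, U)) (h : genericPoint C ∈ U)
    (hs : Function.Injective (Polynomial.eval₂RingHom (kStalk c (genericPoint C))
      (C.presheaf.germ U (genericPoint C) h s))) :
    (toA1 c U s ⟨genericPoint C, h⟩).asIdeal = ⊥ := by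
  rw [toA1_apply, ← RingHom.injective_iff_ker_eq_bot]
  exact (bijective_residue_generic (A := C)).1.comp hs

variable {c} in
theorem finite_fibre [LocallyOfFiniteType c] [CompactSpace C] (hI : Input c 1) (U : C.Opens)
    (s : Γ(C, U)) (h : genericPoint C ∈ U)
    (hs : Function.Injective (Polynomial.eval₂RingHom (kStalk c (genericPoint C))
      (C.presheaf.germ U (genericPoint C) h s)))
    (p : Spec (CommRingCat.of (Polynomial k))) : ((toA1 c U s) ⁻¹' {p}).Finite := by
  by_cases hp : p.asIdeal = ⊥
  · refine (Set.finite_singleton (⟨genericPoint C, h⟩ : U)).subset ?_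
    rintro ⟨ξ, hξ⟩ hξp
    have h1 : toA1 c U s ⟨ξ, hξ⟩ = p := hξp
    have h2 := toA1_apply c U s ξ hξ
    rw [h1, hp] at h2
    have h3 := (RingHom.injective_iff_ker_eq_bot _).2 h2.symm
    have h4 : ξ = genericPoint C := by
      refine eq_generic_of_injective hI ξ ((C.residue ξ).hom (C.presheaf.germ U ξ hξ s)) ?_
      have h5 : Polynomial.eval₂RingHom (kRes c ξ)
          ((C.residue ξ).hom (C.presheaf.germ U ξ hξ s)) =
          (C.residue ξ).hom.comp (Polynomial.eval₂RingHom (kStalk c ξ)
            (C.presheaf.germ U ξ hξ s)) := by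
        apply Polynomial.ringHom_ext
        · intro a
          simp [kRes]
        · simp
      rw [h5]
      exact h3
    subst h4
    rfl
  · have hmax : p.asIdeal.IsMaximal := IsPrime.to_maximal_ideal hp
    have hcl : IsClosed ({p} : Set (Spec (CommRingCat.of (Polynomial k)))) :=
      (PrimeSpectrum.isClosed_singleton_iff_isMaximal p).2 hmax
    have hZ : IsClosed ((toA1 c U s) ⁻¹' {p}) := hcl.preimage (toA1 c U s).continuous
    have hinj : Function.Injective U.ι := U.ι.isOpenEmbedding.injective
    refine Set.Finite.of_finite_image (f := U.ι) ?_ hinj.injOn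
    refine (finite_of_isClosed hI (closure (U.ι '' ((toA1 c U s) ⁻¹' {p}))) isClosed_closure
      ?_).subset subset_closure
    intro hg
    -- the generic point would be in the fibre
    have h1 : (⟨genericPoint C, h⟩ : U) ∈ closure ((toA1 c U s) ⁻¹' {p}) := by
      rw [U.ι.isOpenEmbedding.isInducing.closure_eq_preimage_closure_image]
      exact hg
    rw [hZ.closure_eq] at h1
    have h2 : toA1 c U s ⟨genericPoint C, h⟩ = p := h1
    apply hp
    rw [← h2]
    exact toA1_generic c U s h hs

variable {c} in
theorem isFinite_xmap [IsProper c] (hI : Input c 1) (x : C.functionField)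
    (hs : Function.Injective (Polynomial.eval₂RingHom (kStalk c (genericPoint C)) x)) :
    IsFinite (xmap c x) := by
  have hx : x ≠ 0 := by
    rintro rfl
    have h1 : Polynomial.eval₂RingHom (kStalk c (genericPoint C)) 0 Polynomial.X =
      Polynomial.eval₂RingHom (kStalk c (genericPoint C)) 0 0 := by simp
    exact Polynomial.X_ne_zero (hs h1)
  have : CompactSpace C := QuasiCompact.compactSpace_of_compactSpace c
  have := isProper_xmap c hI x hx
  have : LocallyQuasiFinite (xmap c x) := by
    refine LocallyQuasiFinite.of_finite_preimage_singleton _ fun p => ?_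
    refine finite_fibre hI (regOpen x) (regSec x) (genericPoint_mem_regOpen x) ?_ p
    rw [germ_regSec]
    exact hs
  exact IsFinite.of_isProper_of_locallyQuasiFinite _

end Fermat.Agent.JCd

end
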