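import Mathlib

/-!
# S25, block D1: polynomial bases of the two charts have the same cardinality
-/

set_option autoImplicit false

noncomputable section

universe u

open Polynomial LaurentPolynomial

namespace Fermat.Agent.JCd

section Rank

variable {k A : Type*} [Field k] [CommRing A] [Algebra k A]

variable (k) in
/-- `k[T;T⁻¹] → A`, `T ↦ t`. -/
def lev (t : Aˣ) : k[T;T⁻¹] →+* A := LaurentPolynomial.eval₂ (algebraMap k A) t

theorem lev_toLaurent (t : Aˣ) (p : k[X]) : lev k t (toLaurent p) = aeval (t : A) p := by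
  rw [lev, LaurentPolynomial.eval₂_toLaurent]; rfl

theorem lev_T (t : Aˣ) (n : ℕ) : lev k t (T n) = (t : A) ^ n := by
  rw [lev, LaurentPolynomial.eval₂_T_n]

theorem lev_inv (t : Aˣ) (f : k[T;T⁻¹]) : lev k t⁻¹ f = lev k t (invert f) := by
  induction f using LaurentPolynomial.induction_on' with
  | add p q hp hq => rw [map_add, map_add, map_add, hp, hq]
  | C_mul_T n a =>
    rw [lev, lev, map_mul invert, invert_C, invert_T, LaurentPolynomial.eval₂_C_mul_T,
      LaurentPolynomial.eval₂_C_mul_T, inv_zpow, zpow_neg]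

theorem bijective_lev (t : Aˣ) (S : Subalgebra k A) (hS : (t : A) ∈ S) {d : ℕ} (b : Fin d → A)
    (ex : ∀ a : A, ∃ n : ℕ, (t : A) ^ n * a ∈ S)
    (hb : ∀ a ∈ S, ∃! f : Fin d → k[X], a = ∑ i, aeval (t : A) (f i) * b i) :
    Function.Bijective (fun f : Fin d → k[T;T⁻¹] => ∑ i, lev k t (f i) * b i) := by
  have key : ∀ h : Fin d → k[T;T⁻¹], ∑ i, lev k t (h i) * b i = 0 → h = 0 := by
    intro h hh
    obtain ⟨⟨_, n, rfl⟩, hn⟩ := IsLocalization.exist_integer_multiples_of_finite
      (Submonoid.powers (X : k[X])) h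
    choose p hp using hn
    have h1 : ∀ i, algebraMap k[X] k[T;T⁻¹] (p i) = T n * h i := by
      intro i
      rw [hp i]
      show (X ^ n : k[X]) • h i = _
      rw [Algebra.smul_def, algebraMap_X_pow]
    have h2 : (0 : A) = ∑ i, aeval (t : A) (p i) * b i := by
      have : ∀ i, aeval (t : A) (p i) * b i = (t : A) ^ n * (lev k t (h i) * b i) := by
        intro i
        rw [← lev_toLaurent, ← algebraMap_eq_toLaurent, h1 i, map_mul, lev_T, mul_assoc]
      rw [Finset.sum_congr rfl (fun i _ => this i), ← Finset.mul_sum, hh, mul_zero]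
    have h3 : p = 0 := by
      obtain ⟨f, -, hf⟩ := hb 0 S.zero_mem
      rw [hf p h2, hf 0 (by simp)]
    funext i
    have h4 := h1 i
    rw [h3, Pi.zero_apply, map_zero] at h4
    exact ((isUnit_T (R := k) (n : ℤ)).mul_right_eq_zero.1 h4.symm)
  constructor
  · intro f g hfg
    have h1 : ∑ i, lev k t ((f - g) i) * b i = 0 := by
      simp only [Pi.sub_apply, map_sub, sub_mul, Finset.sum_sub_distrib]
      exact sub_eq_zero.2 hfg
    exact sub_eq_zero.1 (key _ h1)
  · intro a
    obtain ⟨n, hn⟩ := ex a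
    obtain ⟨f, hf, -⟩ := hb _ hn
    refine ⟨fun i => T (-n : ℤ) * toLaurent (f i), ?_⟩
    have h1 : lev k t (T (-n : ℤ)) * (t : A) ^ n = 1 := by
      rw [← lev_T (k := k), ← map_mul, ← T_add, neg_add_cancel, T_zero, map_one]
    show ∑ i, lev k t (T (-n : ℤ) * toLaurent (f i)) * b i = a
    simp only [map_mul, lev_toLaurent, mul_assoc]
    rw [← Finset.mul_sum]
    have hf' : ∑ i, aeval (t : A) (f i) * b i = (t : A) ^ n * a := hf.symm
    rw [hf', ← mul_assoc, h1, one_mul]

theorem card_eq_of_bijective {L A : Type*} [CommRing L] [Nontrivial L] [CommRing A]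
    (φ : L →+* A) {d0 d1 : ℕ} (b0 : Fin d0 → A) (b1 : Fin d1 → A)
    (h0 : Function.Bijective (fun f : Fin d0 → L => ∑ i, φ (f i) * b0 i))
    (h1 : Function.Bijective (fun f : Fin d1 → L => ∑ i, φ (f i) * b1 i)) :
    d0 = d1 := by
  let _ : Module L A := Module.compHom A φ
  have hs : ∀ (r : L) (a : A), r • a = φ r * a := fun r a => rfl
  let e0 : (Fin d0 → L) ≃ₗ[L] A := LinearEquiv.ofBijective
    { toFun := fun f => ∑ i, φ (f i) * b0 i
      map_add' := fun f g => by
        simp only [Pi.add_apply, map_add, add_mul, Finset.sum_add_distrib]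
      map_smul' := fun r f => by
        simp only [Pi.smul_apply, smul_eq_mul, map_mul, RingHom.id_apply, mul_assoc]
        rw [← Finset.mul_sum, hs] } h0
  let e1 : (Fin d1 → L) ≃ₗ[L] A := LinearEquiv.ofBijective
    { toFun := fun f => ∑ i, φ (f i) * b1 i
      map_add' := fun f g => by
        simp only [Pi.add_apply, map_add, add_mul, Finset.sum_add_distrib]
      map_smul' := fun r f => by
        simp only [Pi.smul_apply, smul_eq_mul, map_mul, RingHom.id_apply, mul_assoc]
        rw [← Finset.mul_sum, hs] } h1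
  have h := (e0.trans e1.symm).finrank_eq
  rwa [Module.finrank_fin_fun, Module.finrank_fin_fun] at h

/-- the two charts have the same degree. -/
theorem card_eq (t : Aˣ) (A0 A1 : Subalgebra k A) (ht : (t : A) ∈ A0)
    (ht' : ((t⁻¹ : Aˣ) : A) ∈ A1) {d0 d1 : ℕ} (b0 : Fin d0 → A) (b1 : Fin d1 → A)
    (ex0 : ∀ a : A, ∃ n : ℕ, (t : A) ^ n * a ∈ A0)
    (ex1 : ∀ a : A, ∃ n : ℕ, ((t⁻¹ : Aˣ) : A) ^ n * a ∈ A1)
    (h0 : ∀ a ∈ A0, ∃! f : Fin d0 → k[X], a = ∑ i, aeval (t : A) (f i) * b0 i)
    (h1 : ∀ a ∈ A1, ∃! f : Fin d1 → k[X], a = ∑ i, aeval ((t⁻¹ : Aˣ) : A) (f i) * b1 i) :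
    d0 = d1 := by
  refine card_eq_of_bijective (lev k t) b0 b1 (bijective_lev t A0 ht b0 ex0 h0) ?_
  have h2 := bijective_lev t⁻¹ A1 ht' b1 ex1 h1
  have h3 : (fun f : Fin d1 → k[T;T⁻¹] => ∑ i, lev k t (f i) * b1 i) =
      (fun f : Fin d1 → k[T;T⁻¹] => ∑ i, lev k t⁻¹ (f i) * b1 i) ∘
        (fun f i => invert (f i)) := by
    funext f
    simp only [Function.comp_apply, lev_inv]
    refine Finset.sum_congr rfl fun i _ => ?_
    congr 2
    exact (involutive_invert (f i)).symm
  rw [h3]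
  refine h2.comp ⟨fun f g h => ?_, fun f => ⟨fun i => invert (f i), ?_⟩⟩
  · funext i
    exact invert.injective (congrFun h i)
  · funext i
    exact involutive_invert (f i)

end Rank

/-- polynomial bases of finite algebras. -/
theorem exists_polyBasis {k A : Type u} [Field k] [CommRing A] [IsDomain A] [Algebra k A]
    (S : Subalgebra k A) (t : A) (ht : t ∈ S)
    (hinj : Function.Injective (aeval t : k[X] →ₐ[k] A))
    (hfin : (aeval (⟨t, ht⟩ : S) : k[X] →ₐ[k] S).toRingHom.Finite) :
    ∃ (d : ℕ) (_ : 0 < d) (b : Fin d → A), (∀ i, b i ∈ S) ∧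
      ∀ a ∈ S, ∃! f : Fin d → k[X], a = ∑ i, aeval t (f i) * b i := by
  letI : Algebra k[X] S := (aeval (⟨t, ht⟩ : S) : k[X] →ₐ[k] S).toRingHom.toAlgebra
  have hsmul : ∀ (p : k[X]) (a : S), p • a = aeval (⟨t, ht⟩ : S) p * a := fun p a => rfl
  have hval : ∀ p : k[X], ((aeval (⟨t, ht⟩ : S) p : S) : A) = aeval t p := fun p =>
    (Polynomial.aeval_algHom_apply S.val (⟨t, ht⟩ : S) p).symm
  have h1 : Module.Finite k[X] S := hfin
  have h2 : Function.Injective (algebraMap k[X] S) := by
    intro p q h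
    apply hinj
    rw [← hval, ← hval]
    exact congrArg Subtype.val h
  have h3 : Module.IsTorsionFree k[X] S := by
    rw [Module.isTorsionFree_iff_algebraMap_injective]
    exact h2
  have h4 : Module.Free k[X] S := Module.free_of_finite_type_torsion_free'
  let B := Module.finBasis k[X] S
  refine ⟨Module.finrank k[X] S, Module.finrank_pos, fun i => (B i : A), fun i => (B i).2, ?_⟩
  intro a ha
  refine ⟨fun i => B.repr ⟨a, ha⟩ i, ?_, ?_⟩
  · have h5 := B.sum_repr ⟨a, ha⟩
    have h6 := congrArg Subtype.val h5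
    simp only [hsmul] at h6
    rw [AddSubmonoidClass.coe_finsetSum] at h6
    simp only [MulMemClass.coe_mul, hval] at h6
    exact h6.symm
  · intro f hf
    have h7 : (∑ i, f i • B i : S) = ⟨a, ha⟩ := by
      apply Subtype.ext
      rw [AddSubmonoidClass.coe_finsetSum]
      simp only [hsmul, MulMemClass.coe_mul, hval]
      exact hf.symm
    funext i
    rw [← h7, B.repr_sum_self]

end Fermat.Agent.JCd

end
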