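import Mathlib

/-!
# S25, block D: domain of definition of a rational function on an integral scheme
-/

set_option autoImplicit false

noncomputable section

universe u

open CategoryTheory CategoryTheory.Limits AlgebraicGeometry TopologicalSpace Opposite

namespace Fermat.Agent.JCd

variable {X : Scheme.{u}} [IsIntegral X]

/-- the rational function `x` is given by a section over `W`. -/
def HasSec (x : X.functionField) (W : X.Opens) : Prop :=
  ∃ (h : genericPoint X ∈ W) (s : Γ(X, W)), X.presheaf.germ W (genericPoint X) h s = x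

/-- the domain of definition of the rational function `x`. -/
def regOpen (x : X.functionField) : X.Opens := ⨆ W : {W : X.Opens // HasSec x W}, W.1

theorem genericPoint_mem {W : X.Opens} {ξ : X} (h : ξ ∈ W) : genericPoint X ∈ W :=
  ((genericPoint_spec X).mem_open_set_iff W.isOpen).mpr ⟨ξ, trivial, h⟩

theorem germ_generic_eq {W : X.Opens} {ξ : X} (h : ξ ∈ W) (h' : genericPoint X ∈ W)
    (s : Γ(X, W)) :
    algebraMap (X.presheaf.stalk ξ) X.functionField (X.presheaf.germ W ξ h s) =
      X.presheaf.germ W (genericPoint X) h' s := by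
  have : Nonempty W := ⟨⟨ξ, h⟩⟩
  exact Scheme.algebraMap_germ_eq_germToFunctionField X h s

theorem mem_regOpen_iff (x : X.functionField) (ξ : X) :
    ξ ∈ regOpen x ↔ ∃ t : X.presheaf.stalk ξ,
      algebraMap (X.presheaf.stalk ξ) X.functionField t = x := by
  constructor
  · intro h
    obtain ⟨⟨W, hW⟩, hξ⟩ := Opens.mem_iSup.1 h
    obtain ⟨hg, s, hs⟩ := hW
    exact ⟨X.presheaf.germ W ξ hξ s, (germ_generic_eq hξ hg s).trans hs⟩
  · rintro ⟨t, ht⟩
    obtain ⟨W, hW, s, hs⟩ := X.presheaf.exists_germ_eq t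
    have hs' : X.presheaf.germ W ξ hW s = t := hs
    refine Opens.mem_iSup.2 ⟨⟨W, genericPoint_mem hW, s, ?_⟩, hW⟩
    rw [← germ_generic_eq hW, hs', ht]

theorem exists_regSec (x : X.functionField) (hne : genericPoint X ∈ regOpen x) :
    ∃ s : Γ(X, regOpen x), X.presheaf.germ (regOpen x) (genericPoint X) hne s = x := by
  let sf : ∀ W : {W : X.Opens // HasSec x W}, Γ(X, W.1) := fun W => W.2.choose_spec.choose
  have hsf : ∀ W : {W : X.Opens // HasSec x W},
      X.presheaf.germ W.1 (genericPoint X) W.2.choose (sf W) = x :=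
    fun W => W.2.choose_spec.choose_spec
  have hcomp : TopCat.Presheaf.IsCompatible X.presheaf (fun W : {W : X.Opens // HasSec x W} => W.1)
      sf := by
    intro W W'
    have hg : genericPoint X ∈ W.1 ⊓ W'.1 := ⟨W.2.choose, W'.2.choose⟩
    apply germ_injective_of_isIntegral X (U := W.1 ⊓ W'.1) (genericPoint X) hg
    have e1 := X.presheaf.germ_res_apply (Opens.infLELeft W.1 W'.1) (genericPoint X) hg (sf W)
    have e2 := X.presheaf.germ_res_apply (Opens.infLERight W.1 W'.1) (genericPoint X) hg (sf W')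
    exact e1.trans ((hsf W).trans ((hsf W').symm.trans e2.symm))
  obtain ⟨s, hs, -⟩ := X.sheaf.existsUnique_gluing _ sf hcomp
  refine ⟨s, ?_⟩
  obtain ⟨⟨W, hW⟩, hg⟩ := Opens.mem_iSup.1 hne
  have h1 := hs ⟨W, hW⟩
  have h2 := X.presheaf.germ_res_apply (Opens.leSupr (fun W : {W : X.Opens // HasSec x W} => W.1)
    ⟨W, hW⟩) (genericPoint X) hg s
  exact (h2.symm.trans (congrArg (X.presheaf.germ W (genericPoint X) hg) h1)).trans
    (hsf ⟨W, hW⟩)

end Fermat.Agent.JCd

end
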