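import Fermat.Agent.JCd.Ex
import Fermat.Agent.JCd.Rank
import Fermat.Agent.JCB.Chart
import Fermat.Agent.JC.Const
import Fermat.Agent.JD3.Sch

/-!
# S25, block D1: rings of sections as `k`-algebras
-/

set_option autoImplicit false

noncomputable section

universe u

open CategoryTheory CategoryTheory.Limits AlgebraicGeometry TopologicalSpace Opposite IsLocalRing
open Fermat.Agent.AVS NeronModelInfra Fermat.Agent.JCB

namespace Fermat.Agent.JCd

variable {k : Type u} [Field k] {C : Scheme.{u}} {c : C ⟶ Spec (CommRingCat.of k)}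

/-- sections as a `k`-algebra. -/
def Sec (_ : C ⟶ Spec (CommRingCat.of k)) (U : C.Opens) : Type u := Γ(C, U)

instance (U : C.Opens) : CommRing (Sec c U) := inferInstanceAs (CommRing Γ(C, U))

instance (U : C.Opens) : Algebra k (Sec c U) := (sSec c U).toAlgebra

/-- the identity. -/
def Sec.val (U : C.Opens) : Sec c U →+* Γ(C, U) := RingHom.id Γ(C, U)

theorem Sec.bijective_val (U : C.Opens) : Function.Bijective (Sec.val (c := c) U) :=
  Function.bijective_id

theorem Sec.val_algebraMap (U : C.Opens) (a : k) :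
    Sec.val U (algebraMap k (Sec c U) a) = sSec c U a := rfl

/-- restriction. -/
def Sec.res {U V : C.Opens} (h : V ≤ U) : Sec c U →ₐ[k] Sec c V where
  toRingHom := (C.presheaf.map (homOfLE h).op).hom
  commutes' := fun a => res_sSec c (homOfLE h) a

theorem Sec.val_res {U V : C.Opens} (h : V ≤ U) (s : Sec c U) :
    Sec.val V (Sec.res h s) = C.presheaf.map (homOfLE h).op (Sec.val U s) := rfl

theorem Sec.res_injective [IsIntegral C] {U V : C.Opens} (h : V ≤ U)
    (hV : genericPoint C ∈ V) : Function.Injective (Sec.res (c := c) h) := by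
  intro s s' e
  have : Nonempty V := ⟨⟨_, hV⟩⟩
  exact map_injective_of_isIntegral C (homOfLE h) e

theorem Sec.isDomain [IsIntegral C] {U : C.Opens} (hU : genericPoint C ∈ U) :
    IsDomain (Sec c U) := by
  have : Nonempty U := ⟨⟨_, hU⟩⟩
  exact inferInstanceAs (IsDomain Γ(C, U))

theorem Sec.germ_res [IsIntegral C] {U V : C.Opens} (h : V ≤ U) (hV : genericPoint C ∈ V)
    (s : Sec c U) :
    C.presheaf.germ V (genericPoint C) hV (Sec.val V (Sec.res h s)) =
      C.presheaf.germ U (genericPoint C) (h hV) (Sec.val U s) :=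
  C.presheaf.germ_res_apply (homOfLE h) (genericPoint C) hV (Sec.val U s)

variable (c) in
/-- the subalgebra of restricted sections. -/
def resSub {U V : C.Opens} (h : V ≤ U) : Subalgebra k (Sec c V) := (Sec.res (c := c) h).range

/-- `Γ(C, U)` is the subalgebra. -/
def resEquiv [IsIntegral C] {U V : C.Opens} (h : V ≤ U) (hV : genericPoint C ∈ V) :
    Sec c U ≃ₐ[k] resSub c h :=
  AlgEquiv.ofInjective (Sec.res (c := c) h) (Sec.res_injective h hV)

theorem resEquiv_coe [IsIntegral C] {U V : C.Opens} (h : V ≤ U) (hV : genericPoint C ∈ V)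
    (s : Sec c U) : ((resEquiv h hV s : resSub c h) : Sec c V) = Sec.res h s := rfl

/-- `Γ(V) = Γ(U)_f`. -/
theorem exists_pow_mul_mem {U V : C.Opens} (h : V ≤ U) (hU : IsAffineOpen U) (f : Γ(C, U))
    (e : V = C.basicOpen f) (a : Sec c V) :
    ∃ n : ℕ, (Sec.res (c := c) h f) ^ n * a ∈ resSub c h := by
  let _ : Algebra Γ(C, U) Γ(C, V) := (C.presheaf.map (homOfLE h).op).hom.toAlgebra
  have h1 : IsLocalization.Away f Γ(C, V) := hU.isLocalization_of_eq_basicOpen f (homOfLE h) e
  obtain ⟨n, b, hb⟩ := IsLocalization.Away.surj f (show Γ(C, V) from a)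
  refine ⟨n, b, ?_⟩
  rw [mul_comm]
  exact hb.symm

theorem eval₂_finite_resSub [IsIntegral C] {U V : C.Opens} (h : V ≤ U)
    (hV : genericPoint C ∈ V) (f : Γ(C, U))
    (hf : (Polynomial.eval₂RingHom (kGam c U) f).Finite)
    (hm : Sec.res (c := c) h f ∈ resSub c h) :
    (Polynomial.aeval (⟨Sec.res (c := c) h f, hm⟩ : resSub c h) :
      Polynomial k →ₐ[k] resSub c h).toRingHom.Finite := by
  have h1 : (Polynomial.aeval (⟨Sec.res (c := c) h f, hm⟩ : resSub c h) :
      Polynomial k →ₐ[k] resSub c h).toRingHom = (resEquiv h hV).toRingEquiv.toRingHom.comp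
        (Polynomial.eval₂RingHom (kGam c U) f : Polynomial k →+* Sec c U) := by
    apply Polynomial.ringHom_ext
    · intro a
      rw [RingHom.comp_apply, Polynomial.coe_eval₂RingHom, Polynomial.eval₂_C]
      show Polynomial.aeval _ (Polynomial.C a) = resEquiv h hV (algebraMap k (Sec c U) a)
      rw [Polynomial.aeval_C, AlgEquiv.commutes]
    · rw [RingHom.comp_apply, Polynomial.coe_eval₂RingHom, Polynomial.eval₂_X]
      show Polynomial.aeval _ Polynomial.X = _
      rw [Polynomial.aeval_X]
      rfl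
  rw [h1]
  exact RingHom.Finite.comp (RingHom.Finite.of_surjective _ (resEquiv h hV).surjective) hf

theorem aeval_injective [IsIntegral C] {V : C.Opens} (hV : genericPoint C ∈ V) (f : Γ(C, V))
    (hx : Tr c (C.presheaf.germ V (genericPoint C) hV f)) :
    Function.Injective (Polynomial.aeval (show Sec c V from f) : Polynomial k →ₐ[k] Sec c V) :=
  injective_eval₂ V f hV hx

/-- the intersection of the two rings. -/
theorem mem_bot_of_mem_inf [IsAlgClosed k] [IsProper c] [IsIntegral C] {U V W : C.Opens}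
    (hU : W ≤ U) (hV : W ≤ V) (hW : genericPoint C ∈ W) (cov : U ⊔ V = ⊤) (a : Sec c W)
    (h0 : a ∈ resSub c hU) (h1 : a ∈ resSub c hV) : a ∈ (⊥ : Subalgebra k (Sec c W)) := by
  obtain ⟨s0, rfl⟩ := h0
  obtain ⟨s1, hs1⟩ := h1
  let y : C.functionField := C.presheaf.germ U (genericPoint C) (hU hW) (Sec.val U s0)
  have hy0 : HasSec y U := ⟨hU hW, Sec.val U s0, rfl⟩
  have hy1 : HasSec y V := by
    refine ⟨hV hW, Sec.val V s1, ?_⟩
    have e0 := Sec.germ_res (c := c) hU hW s0
    have e1 := Sec.germ_res (c := c) hV hW s1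
    rw [← e1]
    refine Eq.trans ?_ e0
    exact congrArg (fun z => C.presheaf.germ W (genericPoint C) hW (Sec.val W z)) hs1
  have hle : (⊤ : C.Opens) ≤ regOpen y := by
    rw [← cov]
    refine sup_le ?_ ?_
    · exact le_iSup (fun W : {W : C.Opens // HasSec y W} => W.1) ⟨U, hy0⟩
    · exact le_iSup (fun W : {W : C.Opens // HasSec y W} => W.1) ⟨V, hy1⟩
  let s : Γ(C, ⊤) := C.presheaf.map (homOfLE hle).op (regSec y)
  have hs : C.presheaf.germ ⊤ (genericPoint C) trivial s = y := by
    refine Eq.trans ?_ (germ_regSec y)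
    exact C.presheaf.germ_res_apply (homOfLE hle) (genericPoint C) trivial (regSec y)
  obtain ⟨b, hb⟩ := (JC.bijective_appTop c).2 s
  rw [Algebra.mem_bot]
  refine ⟨(Scheme.ΓSpecIso (CommRingCat.of k)).hom.hom b, ?_⟩
  have e2 : algebraMap k (Sec c W) ((Scheme.ΓSpecIso (CommRingCat.of k)).hom.hom b) =
      C.presheaf.map (homOfLE le_top).op (c.appTop b) := by
    have e4 : (Scheme.ΓSpecIso (CommRingCat.of k)).inv
        ((Scheme.ΓSpecIso (CommRingCat.of k)).hom b) = b := by
      rw [← CommRingCat.comp_apply, Iso.hom_inv_id]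
      rfl
    show C.presheaf.map (homOfLE le_top).op (c.appTop ((Scheme.ΓSpecIso (CommRingCat.of k)).inv
        ((Scheme.ΓSpecIso (CommRingCat.of k)).hom b))) = _
    rw [e4]
  rw [e2]
  apply germ_injective_of_isIntegral C (U := W) (genericPoint C) hW
  have e3 := C.presheaf.germ_res_apply (homOfLE (le_top : W ≤ ⊤)) (genericPoint C) hW
    (c.appTop b)
  refine e3.trans ?_
  refine Eq.trans ?_ (Sec.germ_res (c := c) hU hW s0).symm
  refine Eq.trans ?_ hs
  exact congrArg _ hb

end Fermat.Agent.JCd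

end
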