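import Fermat.Agent.JCd.Sec
import Fermat.Agent.AVC.Final

/-!
# S25, block D1: the two-chart algebra of a curve
-/

set_option autoImplicit false

noncomputable section

universe u

open CategoryTheory CategoryTheory.Limits AlgebraicGeometry TopologicalSpace Opposite IsLocalRing
open Fermat.Agent.AVS NeronModelInfra Fermat.Agent.JCB Fermat.Agent.JPC

namespace Fermat.Agent.JCd

variable {k : Type u} [Field k] {C : Scheme.{u}} {c : C ⟶ Spec (CommRingCat.of k)}

theorem sSec_id (a : k) :
    sSec (𝟙 (Spec (CommRingCat.of k))) ⊤ a = (Scheme.ΓSpecIso (CommRingCat.of k)).inv a := by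
  unfold sSec
  rw [Scheme.Hom.id_appTop]
  have : (homOfLE (le_top : (⊤ : (Spec (CommRingCat.of k)).Opens) ≤ ⊤)).op = 𝟙 _ := rfl
  rw [this, CategoryTheory.Functor.map_id, Category.comp_id, Category.comp_id]

/-- evaluation at `ε`. -/
def evU (ε : SchemeHomOver (𝟙 (Spec (CommRingCat.of k))) c) (U : C.Opens)
    (h : ε.1 ⁻¹ᵁ U = ⊤) : Sec c U →ₐ[k] k where
  toRingHom := (Scheme.ΓSpecIso (CommRingCat.of k)).hom.hom.comp (ε.1.appLE U ⊤ h.ge).hom
  commutes' := fun a => by
    show (Scheme.ΓSpecIso (CommRingCat.of k)).hom (ε.1.appLE U ⊤ h.ge (sSec c U a)) = a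
    rw [appLE_sSec, ε.2, sSec_id, ← CommRingCat.comp_apply, Iso.inv_hom_id]
    rfl

theorem evU_spec (ε : SchemeHomOver (𝟙 (Spec (CommRingCat.of k))) c) (U : C.Opens)
    (h : ε.1 ⁻¹ᵁ U = ⊤) (s : Sec c U) :
    ε.1.appLE U ⊤ h.ge (Sec.val U s) = (Scheme.ΓSpecIso (CommRingCat.of k)).inv (evU ε U h s) := by
  show _ = (Scheme.ΓSpecIso (CommRingCat.of k)).inv
    ((Scheme.ΓSpecIso (CommRingCat.of k)).hom (ε.1.appLE U ⊤ h.ge (Sec.val U s)))
  rw [← CommRingCat.comp_apply, Iso.hom_inv_id]
  rfl

theorem evU_eq_eHom (ε : SchemeHomOver (𝟙 (Spec (CommRingCat.of k))) c) (U : C.Opens)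
    (h : ε.1 ⁻¹ᵁ U = ⊤) (hU : ePt ε ∈ U) (s : Sec c U) :
    evU ε U h s = eHom ε (C.presheaf.germ U (ePt ε) hU (Sec.val U s)) := by
  have h1 := Scheme.germ_stalkClosedPointTo (R := CommRingCat.of k) ε.1 U hU
  have h2 := congrArg (fun f => f.hom (Sec.val U s)) h1
  refine Eq.trans ?_ h2.symm
  rfl

/-- existence of the two-chart algebra. -/
theorem exists_chart [IsAlgClosed k] [IsProper c] [SmoothOfRelativeDimension 1 c] [IsIntegral C]
    (ε : SchemeHomOver (𝟙 (Spec (CommRingCat.of k))) c) :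
    ∃ X : TwoChart k, Nonempty (Chart c ε X) := by
  have hI : Input c 1 := AVC.input c 1
  obtain ⟨x, t0, hx, ht0, he⟩ := exists_function hI ε
  let U : C.Opens := regOpen x
  let V : C.Opens := regOpen x⁻¹
  let W : C.Opens := U ⊓ V
  have gU : genericPoint C ∈ U := genericPoint_mem_regOpen x
  have gV : genericPoint C ∈ V := genericPoint_mem_regOpen x⁻¹
  have gW : genericPoint C ∈ W := ⟨gU, gV⟩
  have hUa : IsAffineOpen U := isAffineOpen_regOpen hI x hx
  have hVa : IsAffineOpen V := isAffineOpen_regOpen hI x⁻¹ hx.inv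
  have cov : U ⊔ V = ⊤ := sup_regOpen hI x
  have b0 : W = C.basicOpen (regSec x) := (basicOpen_regSec x hx.ne_zero).symm
  have b1 : W = C.basicOpen (regSec x⁻¹) := by
    rw [basicOpen_regSec x⁻¹ hx.inv.ne_zero, inv_inv, inf_comm]
  have hWa : IsAffineOpen W := by
    rw [b0]; exact hUa.basicOpen _
  have lU : W ≤ U := inf_le_left
  have lV : W ≤ V := inf_le_right
  have hdom : IsDomain (Sec c W) := Sec.isDomain gW
  have germU : C.presheaf.germ W (genericPoint C) gW
      (Sec.val W (Sec.res (c := c) lU (regSec x))) = x :=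
    (Sec.germ_res (c := c) lU gW (regSec x)).trans (germ_regSec x)
  have germV : C.presheaf.germ W (genericPoint C) gW
      (Sec.val W (Sec.res (c := c) lV (regSec x⁻¹))) = x⁻¹ :=
    (Sec.germ_res (c := c) lV gW (regSec x⁻¹)).trans (germ_regSec x⁻¹)
  have hmul : Sec.res (c := c) lU (regSec x) * Sec.res (c := c) lV (regSec x⁻¹) = 1 := by
    apply germ_injective_of_isIntegral C (U := W) (genericPoint C) gW
    have e1 : C.presheaf.germ W (genericPoint C) gW
      (Sec.val W (Sec.res (c := c) lU (regSec x)) * Sec.val W (Sec.res (c := c) lV (regSec x⁻¹)))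
        = 1 := by
      rw [map_mul, germU, germV, mul_inv_cancel₀ hx.ne_zero]
    refine Eq.trans e1 ?_
    exact (map_one (C.presheaf.germ W (genericPoint C) gW).hom).symm
  let t : (Sec c W)ˣ :=
    { val := Sec.res (c := c) lU (regSec x)
      inv := Sec.res (c := c) lV (regSec x⁻¹)
      val_inv := hmul
      inv_val := (mul_comm _ _).trans hmul }
  have t_mem : (t : Sec c W) ∈ resSub c lU := ⟨regSec x, rfl⟩
  have tinv_mem : ((t⁻¹ : (Sec c W)ˣ) : Sec c W) ∈ resSub c lV := ⟨regSec x⁻¹, rfl⟩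
  have ex0 : ∀ a : Sec c W, ∃ n : ℕ, (t : Sec c W) ^ n * a ∈ resSub c lU := fun a =>
    exists_pow_mul_mem (c := c) lU hUa (regSec x) b0 a
  have ex1 : ∀ a : Sec c W, ∃ n : ℕ, ((t⁻¹ : (Sec c W)ˣ) : Sec c W) ^ n * a ∈ resSub c lV :=
    fun a => exists_pow_mul_mem (c := c) lV hVa (regSec x⁻¹) b1 a
  obtain ⟨d, d_pos, B0, B0_mem, B0_basis⟩ := exists_polyBasis (resSub c lU) (t : Sec c W) t_mem
    (aeval_injective (c := c) gW _ (by
      refine Eq.mpr ?_ hx
      exact congrArg _ germU))
    (eval₂_finite_resSub (c := c) lU gW (regSec x) (finite_eval₂ hI x hx) t_mem)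
  obtain ⟨d', d_pos', B1, B1_mem, B1_basis⟩ := exists_polyBasis (resSub c lV)
    ((t⁻¹ : (Sec c W)ˣ) : Sec c W) tinv_mem
    (aeval_injective (c := c) gW _ (by
      refine Eq.mpr ?_ hx.inv
      exact congrArg _ germV))
    (eval₂_finite_resSub (c := c) lV gW (regSec x⁻¹) (finite_eval₂ hI x⁻¹ hx.inv) tinv_mem)
  have hdd : d = d' := card_eq t (resSub c lU) (resSub c lV) t_mem tinv_mem B0 B1 ex0 ex1
    B0_basis B1_basis
  subst hdd
  have hεU : ePt ε ∈ U := (mem_regOpen_iff x (ePt ε)).2 ⟨t0, ht0⟩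
  have mem_U : ε.1 ⁻¹ᵁ U = ⊤ :=
    Scheme.preimage_eq_top_of_closedPoint_mem (R := CommRingCat.of k) ε.1 hεU
  have hLU : Fermat.Agent.JD3.LocStd 1 k (Sec c U) := Fermat.Agent.JD3.locStd_kSec c 1 hUa
  have hLV : Fermat.Agent.JD3.LocStd 1 k (Sec c V) := Fermat.Agent.JD3.locStd_kSec c 1 hVa
  have hLW : Fermat.Agent.JD3.LocStd 1 k (Sec c W) := Fermat.Agent.JD3.locStd_kSec c 1 hWa
  have dU : IsDomain (Sec c U) := Sec.isDomain gU
  have dV : IsDomain (Sec c V) := Sec.isDomain gV
  have fU : Algebra.FiniteType k (Sec c U) := Fermat.Agent.JD3.finiteType_kSec c hUa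
  have fV : Algebra.FiniteType k (Sec c V) := Fermat.Agent.JD3.finiteType_kSec c hVa
  have fW : Algebra.FiniteType k (Sec c W) := Fermat.Agent.JD3.finiteType_kSec c hWa
  let X : TwoChart k :=
    { A := Sec c W
      A0 := resSub c lU
      A1 := resSub c lV
      t := t
      t_mem := t_mem
      tinv_mem := tinv_mem
      ex0 := ex0
      ex1 := ex1
      inf := by
        refine le_antisymm (fun a ha => ?_) bot_le
        exact mem_bot_of_mem_inf (c := c) lU lV gW cov a ha.1 ha.2
      d := d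
      d_pos := d_pos
      b0 := B0
      b0_mem := B0_mem
      b0_basis := B0_basis
      b1 := B1
      b1_mem := B1_mem
      b1_basis := B1_basis
      ev := (evU ε U mem_U).comp (resEquiv (c := c) lU gW).symm
      ev_t := by
        have h1 : (resEquiv (c := c) lU gW).symm ⟨t, t_mem⟩ = regSec x :=
          (AlgEquiv.symm_apply_eq _).2 rfl
        rw [AlgHom.comp_apply]
        show evU ε U mem_U ((resEquiv (c := c) lU gW).symm ⟨t, t_mem⟩) = 0
        rw [h1, evU_eq_eHom ε U mem_U hεU]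
        have h2 : C.presheaf.germ U (ePt ε) hεU (Sec.val (c := c) U (regSec x)) = t0 := by
          apply IsFractionRing.injective (C.presheaf.stalk (ePt ε)) C.functionField
          rw [ht0]
          exact (germ_generic_eq hεU gU (regSec x)).trans (germ_regSec x)
        rw [h2, he]
      dom := fun κ _ _ => (Fermat.Agent.JD3.dedekind_of_algEquiv hLW AlgEquiv.refl κ).1
      ded0 := fun κ _ _ => Fermat.Agent.JD3.dedekind_of_algEquiv hLU (resEquiv lU gW) κ
      ded1 := fun κ _ _ => Fermat.Agent.JD3.dedekind_of_algEquiv hLV (resEquiv lV gW) κ }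
  refine ⟨X, ⟨?_⟩⟩
  exact
    { U := U
      V := V
      hU := hUa
      hV := hVa
      cov := cov
      s := Sec.val W
      s_bij := Sec.bijective_val W
      s_k := rfl
      s0 := (Sec.val U).comp (resEquiv (c := c) lU gW).symm.toRingEquiv.toRingHom
      s0_bij := (Sec.bijective_val U).comp (resEquiv (c := c) lU gW).symm.bijective
      s0_res := fun a => by
        obtain ⟨s, rfl⟩ := (resEquiv (c := c) lU gW).surjective a
        show C.presheaf.map (homOfLE lU).op (Sec.val U ((resEquiv (c := c) lU gW).symm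
          (resEquiv (c := c) lU gW s))) = _
        rw [AlgEquiv.symm_apply_apply]
        rfl
      s1 := (Sec.val V).comp (resEquiv (c := c) lV gW).symm.toRingEquiv.toRingHom
      s1_bij := (Sec.bijective_val V).comp (resEquiv (c := c) lV gW).symm.bijective
      s1_res := fun a => by
        obtain ⟨s, rfl⟩ := (resEquiv (c := c) lV gW).surjective a
        show C.presheaf.map (homOfLE lV).op (Sec.val V ((resEquiv (c := c) lV gW).symm
          (resEquiv (c := c) lV gW s))) = _
        rw [AlgEquiv.symm_apply_apply]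
        rfl
      s0_k := by
        ext a
        show Sec.val U ((resEquiv (c := c) lU gW).symm (algebraMap k _ a)) = _
        rw [AlgEquiv.commutes]
        rfl
      s1_k := by
        ext a
        show Sec.val V ((resEquiv (c := c) lV gW).symm (algebraMap k _ a)) = _
        rw [AlgEquiv.commutes]
        rfl
      basic0 := by
        refine b0.trans (congrArg _ ?_)
        show _ = (resEquiv (c := c) lU gW).symm ⟨t, t_mem⟩
        exact ((AlgEquiv.symm_apply_eq _).2 rfl).symm
      basic1 := by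
        refine b1.trans (congrArg _ ?_)
        show _ = (resEquiv (c := c) lV gW).symm ⟨((t⁻¹ : (Sec c W)ˣ) : Sec c W), tinv_mem⟩
        exact ((AlgEquiv.symm_apply_eq _).2 rfl).symm
      mem_U := mem_U
      ev_spec := fun a => evU_spec ε U mem_U ((resEquiv (c := c) lU gW).symm a) }

end Fermat.Agent.JCd

end
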