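import Fermat.Agent.JCd.Reg

/-!
# S25, block D: the morphism `U → 𝔸¹` given by a rational function on a proper curve is proper
-/

set_option autoImplicit false

noncomputable section

universe u

open CategoryTheory CategoryTheory.Limits AlgebraicGeometry TopologicalSpace Opposite IsLocalRing

namespace Fermat.Agent.JCd

section Local

variable {X : Scheme.{u}} {R : CommRingCat.{u}} [IsLocalRing R]

/-- the restriction of `Spec R → U ⊆ X` through the stalk. -/
theorem eq_comp_fromSpecStalkOfMem (U : X.Opens) (i : Spec R ⟶ U.toScheme)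
    (h : (i ≫ U.ι) (closedPoint R) ∈ U) :
    i = Spec.map (Scheme.stalkClosedPointTo (i ≫ U.ι)) ≫
      U.fromSpecStalkOfMem ((i ≫ U.ι) (closedPoint R)) h := by
  rw [← cancel_mono U.ι, Category.assoc, Scheme.Opens.fromSpecStalkOfMem_ι,
    Scheme.Spec_stalkClosedPointTo_fromSpecStalk]

theorem comp_toSpecΓ (U : X.Opens) (i : Spec R ⟶ U.toScheme)
    (h : (i ≫ U.ι) (closedPoint R) ∈ U) :
    i ≫ U.toSpecΓ = Spec.map (X.presheaf.germ U _ h ≫
      Scheme.stalkClosedPointTo (i ≫ U.ι)) := by
  conv_lhs => rw [eq_comp_fromSpecStalkOfMem U i h]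
  rw [Category.assoc, Scheme.Opens.fromSpecStalkOfMem_toSpecΓ, ← Spec.map_comp]

/-- the image of the closed point specializes. -/
theorem closedPoint_specializes {B B' : CommRingCat.{u}} [IsLocalRing B] [IsLocalRing B']
    (φ : B ⟶ B') (l : Spec B ⟶ X) :
    (Spec.map φ ≫ l) (closedPoint B') ⤳ l (closedPoint B) := by
  rw [Scheme.Hom.comp_apply]
  exact (IsLocalRing.specializes_closedPoint _).map l.continuous

theorem stalkSpecializes_stalkClosedPointTo {B B' : CommRingCat.{u}} [IsLocalRing B]
    [IsLocalRing B'] (φ : B ⟶ B') (l : Spec B ⟶ X) :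
    X.presheaf.stalkSpecializes (closedPoint_specializes φ l) ≫
      Scheme.stalkClosedPointTo (Spec.map φ ≫ l) = Scheme.stalkClosedPointTo l ≫ φ := by
  apply Spec.map_injective
  rw [← cancel_mono (X.fromSpecStalk _), Spec.map_comp, Spec.map_comp, Category.assoc,
    Category.assoc, Scheme.SpecMap_stalkSpecializes_fromSpecStalk,
    Scheme.Spec_stalkClosedPointTo_fromSpecStalk, Scheme.Spec_stalkClosedPointTo_fromSpecStalk]

theorem closedPoint_specializes' {B B' : CommRingCat.{u}} [IsLocalRing B] [IsLocalRing B']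
    (φ : B ⟶ B') (l : Spec B ⟶ X) (y : Spec B' ⟶ X) (hy : y = Spec.map φ ≫ l) :
    y (closedPoint B') ⤳ l (closedPoint B) := by
  subst hy; exact closedPoint_specializes φ l

theorem stalkSpecializes_stalkClosedPointTo' {B B' : CommRingCat.{u}} [IsLocalRing B]
    [IsLocalRing B'] (φ : B ⟶ B') (l : Spec B ⟶ X) (y : Spec B' ⟶ X)
    (hy : y = Spec.map φ ≫ l) :
    X.presheaf.stalkSpecializes (closedPoint_specializes' φ l y hy) ≫
      Scheme.stalkClosedPointTo y = Scheme.stalkClosedPointTo l ≫ φ := by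
  subst hy; exact stalkSpecializes_stalkClosedPointTo φ l

end Local

theorem algebraMap_stalkSpecializes {X : Scheme.{u}} [IsIntegral X] {ξ η : X} (h : η ⤳ ξ)
    (t : X.presheaf.stalk ξ) :
    algebraMap (X.presheaf.stalk η) X.functionField (X.presheaf.stalkSpecializes h t) =
      algebraMap (X.presheaf.stalk ξ) X.functionField t := by
  obtain ⟨W, hW, s, rfl⟩ := X.presheaf.exists_germ_eq t
  have hη : η ∈ W := h.mem_open W.isOpen hW
  have h1 : X.presheaf.stalkSpecializes h (X.presheaf.germ W ξ hW s) =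
      X.presheaf.germ W η hη s := X.presheaf.germ_stalkSpecializes_apply hW h s
  rw [h1, germ_generic_eq hη (genericPoint_mem hη), germ_generic_eq hW (genericPoint_mem hη)]

/-- a morphism to an affine scheme is determined by global sections. -/
theorem eq_toSpecΓ_comp {X : Scheme.{u}} {R : CommRingCat.{u}} (g : X ⟶ Spec R) :
    g = X.toSpecΓ ≫ Spec.map ((Scheme.ΓSpecIso R).inv ≫ g.appTop) := by
  rw [Spec.map_comp, ← Scheme.toSpecΓ_naturality_assoc]
  have : (Spec R).toSpecΓ ≫ Spec.map (Scheme.ΓSpecIso R).inv = 𝟙 _ := by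
    rw [← SpecMap_ΓSpecIso_hom, ← Spec.map_comp, Iso.inv_hom_id, Spec.map_id]
  rw [this, Category.comp_id]

variable {k : Type u} [Field k] {C : Scheme.{u}} (c : C ⟶ Spec (CommRingCat.of k))

/-- the `k`-algebra structure on sections. -/
def kGam (U : C.Opens) : k →+* Γ(C, U) :=
  ((Scheme.ΓSpecIso (CommRingCat.of k)).inv ≫ c.appTop ≫
    C.presheaf.map (homOfLE le_top).op).hom

theorem toSpecΓ_kGam (U : C.Opens) :
    U.toSpecΓ ≫ Spec.map (CommRingCat.ofHom (kGam c U)) = U.ι ≫ c := by
  have h1 : CommRingCat.ofHom (kGam c U) = ((Scheme.ΓSpecIso (CommRingCat.of k)).inv ≫ c.appTop) ≫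
    C.presheaf.map (homOfLE le_top).op := rfl
  rw [h1, Spec.map_comp, Scheme.Opens.toSpecΓ_SpecMap_presheaf_map_top_assoc,
    ← eq_toSpecΓ_comp]

/-- the morphism `U → 𝔸¹` defined by a section. -/
def toA1 (U : C.Opens) (s : Γ(C, U)) : U.toScheme ⟶ Spec (CommRingCat.of (Polynomial k)) :=
  U.toSpecΓ ≫ Spec.map (CommRingCat.ofHom (Polynomial.eval₂RingHom (kGam c U) s))

theorem toA1_comp (U : C.Opens) (s : Γ(C, U)) :
    toA1 c U s ≫ Spec.map (CommRingCat.ofHom Polynomial.C) = U.ι ≫ c := by
  rw [toA1, Category.assoc, ← Spec.map_comp, ← CommRingCat.ofHom_comp]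
  have : (Polynomial.eval₂RingHom (kGam c U) s).comp Polynomial.C = kGam c U := by
    ext a; simp
  rw [this, toSpecΓ_kGam]

variable [IsIntegral C]

/-- valuative criterion for `U → 𝔸¹`. -/
theorem valuative_existence [IsProper c] (x : C.functionField)
    (hval : ∀ ξ : C, (∃ t : C.presheaf.stalk ξ, algebraMap _ C.functionField t = x) ∨
      (∃ t : C.presheaf.stalk ξ, algebraMap _ C.functionField t = x⁻¹))
    (hx : x ≠ 0) (hU : genericPoint C ∈ regOpen x)
    (s : Γ(C, regOpen x)) (hs : C.presheaf.germ (regOpen x) (genericPoint C) hU s = x) :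
    ValuativeCriterion.Existence (toA1 c (regOpen x) s) := by
  intro S
  obtain ⟨R, K', i₁, i₂, ⟨w⟩⟩ := S
  -- the lift to `C`
  have hV : ValuativeCriterion c := by
    have h1 : (@IsProper) c := inferInstance
    rw [IsProper.eq_valuativeCriterion] at h1
    exact h1.1.1.1
  have w' : (i₁ ≫ (regOpen x).ι) ≫ c = Spec.map (CommRingCat.ofHom (algebraMap R K')) ≫
      (i₂ ≫ Spec.map (CommRingCat.ofHom Polynomial.C)) := by
    rw [Category.assoc, ← toA1_comp c (regOpen x) s, ← Category.assoc, w, Category.assoc]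
  obtain ⟨l, hl₁, hl₂⟩ : ∃ l : Spec (CommRingCat.of R) ⟶ C,
      Spec.map (CommRingCat.ofHom (algebraMap R K')) ≫ l = i₁ ≫ (regOpen x).ι ∧
      l ≫ c = i₂ ≫ Spec.map (CommRingCat.ofHom Polynomial.C) := by
    obtain ⟨l, hl₁, hl₂⟩ := (hV.existence
      { R := R, K := K', i₁ := i₁ ≫ (regOpen x).ι
        i₂ := i₂ ≫ Spec.map (CommRingCat.ofHom Polynomial.C)
        commSq := ⟨w'⟩ }).exists_lift
    exact ⟨l, hl₁, hl₂⟩
  let φ : CommRingCat.of R ⟶ CommRingCat.of K' := CommRingCat.ofHom (algebraMap R K')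
  have hkey : l (closedPoint (CommRingCat.of R)) ∈ regOpen x := by
    by_contra hnot
    rw [mem_regOpen_iff] at hnot
    obtain ⟨t, ht⟩ := (hval (l (closedPoint (CommRingCat.of R)))).resolve_left hnot
    have htu : ¬ IsUnit t := by
      rintro ⟨u, rfl⟩
      apply hnot
      refine ⟨((u⁻¹ : Units _) : C.presheaf.stalk _), ?_⟩
      have h1 : algebraMap (C.presheaf.stalk (l (closedPoint (CommRingCat.of R))))
          C.functionField u * algebraMap _ C.functionField ((u⁻¹ : Units _) :
            C.presheaf.stalk (l (closedPoint (CommRingCat.of R)))) = 1 := by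
        rw [← map_mul, Units.mul_inv, map_one]
      rw [ht] at h1
      field_simp at h1
      exact h1
    -- the generic point of the square
    have hη : (i₁ ≫ (regOpen x).ι) (closedPoint (CommRingCat.of K')) ∈ regOpen x :=
      (i₁ (closedPoint (CommRingCat.of K'))).2
    have hy : i₁ ≫ (regOpen x).ι = Spec.map φ ≫ l := hl₁.symm
    have hsp : (i₁ ≫ (regOpen x).ι) (closedPoint (CommRingCat.of K')) ⤳
        l (closedPoint (CommRingCat.of R)) := closedPoint_specializes' φ l _ hy
    have hβ : C.presheaf.stalkSpecializes hsp ≫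
        Scheme.stalkClosedPointTo (i₁ ≫ (regOpen x).ι) = Scheme.stalkClosedPointTo l ≫ φ :=
      stalkSpecializes_stalkClosedPointTo' φ l _ hy
    obtain ⟨ρ, hρ⟩ := Spec.map_surjective i₂
    have hw : CommRingCat.ofHom (Polynomial.eval₂RingHom (kGam c (regOpen x)) s) ≫
        C.presheaf.germ _ _ hη ≫ Scheme.stalkClosedPointTo (i₁ ≫ (regOpen x).ι) = ρ ≫ φ := by
      apply Spec.map_injective
      rw [Spec.map_comp, Spec.map_comp _ φ, hρ, ← comp_toSpecΓ, Category.assoc]
      exact w
    have e1 := congrArg (fun g => g.hom Polynomial.X) hw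
    simp only [CommRingCat.hom_comp, RingHom.comp_apply, CommRingCat.hom_ofHom,
      Polynomial.coe_eval₂RingHom, Polynomial.eval₂_X] at e1
    have e2 : C.presheaf.germ _ _ hη s * C.presheaf.stalkSpecializes hsp t = 1 := by
      apply IsFractionRing.injective (C.presheaf.stalk _) C.functionField
      rw [map_mul, map_one, algebraMap_stalkSpecializes, ht, germ_generic_eq hη hU, hs,
        mul_inv_cancel₀ hx]
    have e3 := congrArg (fun g => g.hom t) hβ
    simp only [CommRingCat.hom_comp, RingHom.comp_apply] at e3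
    have e4 := congrArg (Scheme.stalkClosedPointTo (i₁ ≫ (regOpen x).ι)).hom e2
    rw [map_mul, map_one] at e4
    have e5 : algebraMap R K' (ρ.hom Polynomial.X * (Scheme.stalkClosedPointTo l).hom t) = 1 := by
      rw [map_mul, ← e4]
      exact congrArg₂ (· * ·) e1.symm e3.symm
    have e6 : ρ.hom Polynomial.X * (Scheme.stalkClosedPointTo l).hom t = 1 :=
      IsFractionRing.injective R K' (e5.trans (map_one _).symm)
    have e7 : IsUnit ((Scheme.stalkClosedPointTo l).hom t) :=
      IsUnit.of_mul_eq_one _ (by rw [mul_comm]; exact e6)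
    exact htu ((Scheme.isLocalHom_stalkClosedPointTo l).map_nonunit t e7)
  have hrange : Set.range l ⊆ Set.range (regOpen x).ι := by
    rw [Scheme.Opens.range_ι]
    rintro _ ⟨p, rfl⟩
    have : p ⤳ closedPoint (CommRingCat.of R) := IsLocalRing.specializes_closedPoint p
    exact (this.map l.continuous).mem_open (regOpen x).isOpen hkey
  have hfac : Spec.map φ ≫ IsOpenImmersion.lift (regOpen x).ι l hrange = i₁ := by
    rw [← cancel_mono (regOpen x).ι, Category.assoc, IsOpenImmersion.lift_fac]
    exact hl₁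
  refine ⟨⟨⟨IsOpenImmersion.lift (regOpen x).ι l hrange, hfac, ?_⟩⟩⟩
  obtain ⟨ρ, hρ⟩ := Spec.map_surjective i₂
  obtain ⟨ρ', hρ'⟩ := Spec.map_surjective
    (IsOpenImmersion.lift (regOpen x).ι l hrange ≫ toA1 c (regOpen x) s)
  have h1 : ρ' ≫ φ = ρ ≫ φ := by
    apply Spec.map_injective
    rw [Spec.map_comp, Spec.map_comp, hρ, hρ', ← Category.assoc, hfac]
    exact w
  have h2 : ρ' = ρ := by
    apply CommRingCat.hom_ext
    apply RingHom.ext
    intro a
    have := congrArg (fun g => g.hom a) h1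
    simp only [CommRingCat.hom_comp, RingHom.comp_apply] at this
    exact IsFractionRing.injective R K' this
  rw [← hρ', h2, hρ]

/-- `U → 𝔸¹` is proper. -/
theorem isProper_toA1 [IsProper c] [IsLocallyNoetherian C] (x : C.functionField)
    (hval : ∀ ξ : C, (∃ t : C.presheaf.stalk ξ, algebraMap _ C.functionField t = x) ∨
      (∃ t : C.presheaf.stalk ξ, algebraMap _ C.functionField t = x⁻¹))
    (hx : x ≠ 0) (hU : genericPoint C ∈ regOpen x)
    (s : Γ(C, regOpen x)) (hs : C.presheaf.germ (regOpen x) (genericPoint C) hU s = x) :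
    IsProper (toA1 c (regOpen x) s) := by
  have hcomp := toA1_comp c (regOpen x) s
  haveI : CompactSpace C := QuasiCompact.compactSpace_of_compactSpace c
  haveI : IsNoetherian C := {}
  haveI : QuasiCompact ((regOpen x).ι ≫ c) := inferInstance
  haveI : IsSeparated (toA1 c (regOpen x) s ≫ Spec.map (CommRingCat.ofHom Polynomial.C)) := by
    rw [hcomp]; infer_instance
  haveI : QuasiCompact (toA1 c (regOpen x) s ≫ Spec.map (CommRingCat.ofHom Polynomial.C)) := by
    rw [hcomp]; infer_instance
  haveI : LocallyOfFiniteType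
      (toA1 c (regOpen x) s ≫ Spec.map (CommRingCat.ofHom Polynomial.C)) := by
    rw [hcomp]; infer_instance
  haveI : IsSeparated (toA1 c (regOpen x) s) :=
    IsSeparated.of_comp _ (Spec.map (CommRingCat.ofHom Polynomial.C))
  haveI : QuasiCompact (toA1 c (regOpen x) s) :=
    QuasiCompact.of_comp _ (Spec.map (CommRingCat.ofHom Polynomial.C))
  haveI : LocallyOfFiniteType (toA1 c (regOpen x) s) :=
    locallyOfFiniteType_of_comp _ (Spec.map (CommRingCat.ofHom Polynomial.C))
  haveI : UniversallyClosed (toA1 c (regOpen x) s) :=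
    UniversallyClosed.of_valuativeCriterion _ (valuative_existence c x hval hx hU s hs)
  exact {}

end Fermat.Agent.JCd

end
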